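import Fermat.Agent.S21.J1.Ramanujan

/-!
# Project ES (S20 + S21), work package J1 (part 2): derivative of `Δ` and of `j`

* `ramanujan_Δ` : `D Δ = E₂ Δ`.
* `D_phi` : for `φ_{z₀}(z) = E₄(z)³ Δ(z₀) - E₄(z₀)³ Δ(z)` (the numerator of `j(z) - j(z₀)`),
  `D φ_{z₀} (z₀) = - E₄(z₀)² E₆(z₀) Δ(z₀)`.
* `analyticOrderAt_phi` : `φ_{z₀}` has a simple zero at `z₀` if `E₄ z₀ ≠ 0` and `E₆ z₀ ≠ 0`.
-/

set_option autoImplicit false

open UpperHalfPlane hiding I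
open Real Complex Filter Function
open scoped Manifold MatrixGroups ModularForm Topology
open Derivative ModularForm EisensteinSeries

noncomputable section

namespace Fermat.Agent.S21.J1

local notation "Δ" => ModularForm.discriminant

lemma mdiff_discriminant : MDiff (Δ : ℍ → ℂ) :=
  ModularFormClass.holo CuspForm.discriminant

lemma discriminant_eq_fun :
    (Δ : ℍ → ℂ) = (1728⁻¹ : ℂ) • ((E₄ : ℍ → ℂ) ^ 3 - (E₆ : ℍ → ℂ) ^ 2) := by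
  funext z
  rw [discriminant_eq_E₄_cube_sub_E₆_sq z]
  simp only [Pi.smul_apply, Pi.sub_apply, Pi.pow_apply, smul_eq_mul]
  ring

/-- `D (E₄³) = 3 E₄² D E₄`, pointwise. -/
lemma D_E₄_cube (z : ℍ) :
    D ((E₄ : ℍ → ℂ) ^ 3) z = 3 * E₄ z ^ 2 * D (E₄ : ℍ → ℂ) z := by
  rw [normalizedDerivOfComplex_pow _ 3 (levelOne_mdiff E₄)]
  simp

/-- `D (E₆²) = 2 E₆ D E₆`, pointwise. -/
lemma D_E₆_sq (z : ℍ) :
    D ((E₆ : ℍ → ℂ) ^ 2) z = 2 * E₆ z * D (E₆ : ℍ → ℂ) z := by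
  rw [normalizedDerivOfComplex_pow _ 2 (levelOne_mdiff E₆)]
  simp

/-- **Ramanujan's identity** for the discriminant: `D Δ = E₂ Δ`. -/
theorem ramanujan_Δ (z : ℍ) : D (Δ : ℍ → ℂ) z = E2 z * Δ z := by
  have h4 : MDiff ((E₄ : ℍ → ℂ) ^ 3) := (levelOne_mdiff E₄).pow 3
  have h6 : MDiff ((E₆ : ℍ → ℂ) ^ 2) := (levelOne_mdiff E₆).pow 2
  rw [discriminant_eq_E₄_cube_sub_E₆_sq z, discriminant_eq_fun,
    normalizedDerivOfComplex_smul _ _ (h4.sub h6), normalizedDerivOfComplex_sub _ _ h4 h6]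
  simp only [Pi.smul_apply, Pi.sub_apply, smul_eq_mul]
  rw [D_E₄_cube, D_E₆_sq, ramanujan_E₄, ramanujan_E₆]
  ring

/-- the numerator of `j(z) - j(z₀)` -/
def phi (z₀ : ℍ) : ℍ → ℂ := fun z => E₄ z ^ 3 * Δ z₀ - E₄ z₀ ^ 3 * Δ z

lemma phi_apply (z₀ z : ℍ) : phi z₀ z = E₄ z ^ 3 * Δ z₀ - E₄ z₀ ^ 3 * Δ z := rfl

@[simp] lemma phi_self (z₀ : ℍ) : phi z₀ z₀ = 0 := by
  rw [phi_apply]; ring

lemma phi_eq_fun (z₀ : ℍ) :
    phi z₀ = (Δ z₀) • ((E₄ : ℍ → ℂ) ^ 3) - (E₄ z₀ ^ 3) • (Δ : ℍ → ℂ) := by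
  funext z
  simp only [phi_apply, Pi.sub_apply, Pi.smul_apply, Pi.pow_apply, smul_eq_mul]
  ring

lemma mdiff_phi (z₀ : ℍ) : MDiff (phi z₀) := by
  rw [phi_eq_fun]
  exact (((levelOne_mdiff E₄).pow 3).const_smul _).sub (mdiff_discriminant.const_smul _)

/-- `D φ_{z₀}` in terms of `E₂, E₄, E₆, Δ`. -/
theorem D_phi_apply (z₀ z : ℍ) :
    D (phi z₀) z = E₄ z ^ 2 * (E2 z * E₄ z - E₆ z) * Δ z₀ - E₄ z₀ ^ 3 * (E2 z * Δ z) := by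
  have h4 : MDiff ((E₄ : ℍ → ℂ) ^ 3) := (levelOne_mdiff E₄).pow 3
  rw [phi_eq_fun, normalizedDerivOfComplex_sub _ _ (h4.const_smul _)
    (mdiff_discriminant.const_smul _), normalizedDerivOfComplex_smul _ _ h4,
    normalizedDerivOfComplex_smul _ _ mdiff_discriminant]
  simp only [Pi.smul_apply, Pi.sub_apply, smul_eq_mul]
  rw [D_E₄_cube, ramanujan_E₄, ramanujan_Δ]
  ring

/-- `D φ_{z₀} (z₀) = - E₄(z₀)² E₆(z₀) Δ(z₀)`. -/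
theorem D_phi (z₀ : ℍ) : D (phi z₀) z₀ = -(E₄ z₀ ^ 2 * E₆ z₀ * Δ z₀) := by
  rw [D_phi_apply]; ring

theorem D_phi_ne_zero {z₀ : ℍ} (h4 : E₄ z₀ ≠ 0) (h6 : E₆ z₀ ≠ 0) : D (phi z₀) z₀ ≠ 0 := by
  rw [D_phi]
  exact neg_ne_zero.mpr (mul_ne_zero (mul_ne_zero (pow_ne_zero 2 h4) h6) (discriminant_ne_zero z₀))

/-- `φ_{z₀}` has a simple zero at `z₀` when `z₀` is not a zero of `E₄ E₆`. -/
theorem analyticOrderAt_phi {z₀ : ℍ} (h4 : E₄ z₀ ≠ 0) (h6 : E₆ z₀ ≠ 0) :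
    analyticOrderAt (phi z₀ ∘ ofComplex) (z₀ : ℂ) = 1 := by
  refine (analyticAt_comp_ofComplex' (mdiff_phi z₀) z₀).analyticOrderAt_eq_one_of_zero_deriv_ne_zero
    (by simp [ofComplex_apply]) ?_
  rw [deriv_eq_two_pi_I_mul_D]
  exact mul_ne_zero two_pi_I_ne_zero' (D_phi_ne_zero h4 h6)

/-- `φ_{z₀}` for `z₀` a zero of `E₄` (e.g. `z₀ = ρ`) is `Δ(z₀) E₄³`. -/
theorem phi_of_E₄_eq_zero {z₀ : ℍ} (h : E₄ z₀ = 0) (z : ℍ) : phi z₀ z = Δ z₀ * E₄ z ^ 3 := by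
  rw [phi_apply, h]; ring

/-- `φ_{z₀}` for `z₀` a zero of `E₆` (e.g. `z₀ = i`) is `Δ(z₀) E₆²`. -/
theorem phi_of_E₆_eq_zero {z₀ : ℍ} (h : E₆ z₀ = 0) (z : ℍ) : phi z₀ z = Δ z₀ * E₆ z ^ 2 := by
  rw [phi_apply, discriminant_eq_E₄_cube_sub_E₆_sq z, discriminant_eq_E₄_cube_sub_E₆_sq z₀, h]
  ring

/-- `φ` is antisymmetric. -/
theorem phi_symm (z₀ z : ℍ) : phi z₀ z = -phi z z₀ := by
  rw [phi_apply, phi_apply]; ring

/-- The transformation rule of `Δ` under `SL(2,ℤ)`. -/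
lemma discriminant_smul_apply (γ : SL(2, ℤ)) (z : ℍ) :
    Δ (γ • z) = (denom γ z) ^ (12 : ℤ) * Δ z := by
  have h := congrFun (SlashInvariantForm.slash_action_eqn CuspForm.discriminant _
    (MonoidHom.mem_range.mpr ⟨γ, rfl⟩)) z
  have h' : ((Δ : ℍ → ℂ) ∣[(12 : ℤ)] γ) z = Δ z := h
  rw [ModularForm.SL_slash_apply] at h'
  have hd' : (denom γ z) ^ (12 : ℤ) ≠ 0 := zpow_ne_zero _ (denom_ne_zero γ z)
  rw [zpow_neg] at h'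
  rw [← h', mul_comm, mul_assoc, inv_mul_cancel₀ hd', mul_one]

/-- `φ_{z₀}` transforms like a modular form of weight 12. -/
theorem phi_smul (z₀ : ℍ) (γ : SL(2, ℤ)) (z : ℍ) :
    phi z₀ (γ • z) = (denom γ z) ^ (12 : ℤ) * phi z₀ z := by
  have h4 := levelOne_smul_apply E₄ γ z
  have hΔ := discriminant_smul_apply γ z
  rw [phi_apply, phi_apply, h4, hΔ]
  have : ((denom γ z) ^ (4 : ℤ)) ^ 3 = (denom γ z) ^ (12 : ℤ) := by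
    rw [← zpow_natCast, ← zpow_mul]; norm_num
  rw [mul_pow, this]
  ring

/-- `φ_{z₀}` vanishes on the orbit of `z₀`. -/
theorem phi_smul_self (z₀ : ℍ) (γ : SL(2, ℤ)) : phi z₀ (γ • z₀) = 0 := by
  rw [phi_smul, phi_self, mul_zero]

end Fermat.Agent.S21.J1
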