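import Mathlib.NumberTheory.ModularForms.Derivative
import Mathlib.NumberTheory.ModularForms.LevelOne.GradedRing

/-!
# Project ES (S20 + S21), work package J1: Ramanujan identities and simple zeros

* `serreDerivMF` : the Serre derivative of a level one modular form is a modular form of
  weight `k + 2`.
* `ramanujan_E₄`, `ramanujan_E₆` : `D E₄ = (E₂ E₄ - E₆) / 3`, `D E₆ = (E₂ E₆ - E₄²) / 2`.
* `E₄_rho`, `E₆_I` : `E₄ ρ = 0`, `E₆ i = 0` (and on the whole orbits).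
* `analyticOrderAt_E₄_of_eq_zero`, `analyticOrderAt_E₆_of_eq_zero` : all zeros of `E₄` and of
  `E₆` are simple.
-/

set_option autoImplicit false

open UpperHalfPlane hiding I
open Real Complex Filter Function
open scoped Manifold MatrixGroups ModularForm Topology
open Derivative ModularForm EisensteinSeries

noncomputable section

namespace Fermat.Agent.S21.J1

local notation "𝕢" => Periodic.qParam

/-- For a holomorphic, `1`-periodic function `f` on `ℍ` which is bounded at `i∞`, the normalised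
derivative is `D f = q · c'(q)` where `c` is the cusp function. -/
theorem normalizedDeriv_eq_qParam_mul_deriv_cuspFunction {f : ℍ → ℂ}
    (hfper : Periodic (f ∘ ofComplex) ((1 : ℝ) : ℂ)) (hfhol : MDiff f)
    (hfbdd : IsBoundedAtImInfty f) (z : ℍ) :
    D f z = 𝕢 1 z * deriv (cuspFunction 1 f) (𝕢 1 z) := by
  have hq : ‖𝕢 1 (z : ℂ)‖ < 1 := Periodic.norm_qParam_lt_one one_pos z.im_pos
  have hc : DifferentiableAt ℂ (cuspFunction 1 f) (𝕢 1 z) :=
    differentiableAt_cuspFunction one_pos hfper hfhol hfbdd hq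
  have hqd : HasDerivAt (𝕢 1) (2 * π * I * 𝕢 1 (z : ℂ)) (z : ℂ) := by
    have h1 : HasDerivAt (fun w : ℂ => 2 * π * I * w / ((1 : ℝ) : ℂ)) (2 * π * I) (z : ℂ) := by
      simpa using ((hasDerivAt_id (z : ℂ)).const_mul (2 * π * I)).div_const ((1 : ℝ) : ℂ)
    have h2 := h1.cexp
    have h3 : HasDerivAt (𝕢 1) (𝕢 1 (z : ℂ) * (2 * π * I)) (z : ℂ) := h2
    rw [mul_comm]
    exact h3
  have hcomp : HasDerivAt (cuspFunction 1 f ∘ 𝕢 1)
      (deriv (cuspFunction 1 f) (𝕢 1 z) * (2 * π * I * 𝕢 1 (z : ℂ))) (z : ℂ) :=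
    hc.hasDerivAt.comp (z : ℂ) hqd
  have heq : (f ∘ ofComplex) =ᶠ[𝓝 (z : ℂ)] (cuspFunction 1 f ∘ 𝕢 1) := by
    filter_upwards [isOpen_upperHalfPlaneSet.mem_nhds z.im_pos] with w hw
    have := eq_cuspFunction (f := f) ⟨w, hw⟩ one_ne_zero hfper
    simp only [Function.comp_apply, ofComplex_apply_of_im_pos hw]
    exact this.symm
  have hd : deriv (f ∘ ofComplex) (z : ℂ)
      = deriv (cuspFunction 1 f) (𝕢 1 z) * (2 * π * I * 𝕢 1 (z : ℂ)) :=
    (hcomp.congr_of_eventuallyEq heq).deriv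
  have h2pi : (2 * π * I : ℂ) ≠ 0 := by
    simp [Real.pi_ne_zero, I_ne_zero]
  simp only [normalizedDerivOfComplex, hd]
  field_simp

/-- For a holomorphic, `1`-periodic function `f` on `ℍ` which is bounded at `i∞`, the normalised
derivative `D f` tends to zero at `i∞`. -/
theorem isZeroAtImInfty_normalizedDeriv {f : ℍ → ℂ}
    (hfper : Periodic (f ∘ ofComplex) ((1 : ℝ) : ℂ)) (hfhol : MDiff f)
    (hfbdd : IsBoundedAtImInfty f) : IsZeroAtImInfty (D f) := by
  have han : AnalyticAt ℂ (cuspFunction 1 f) 0 :=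
    analyticAt_cuspFunction_zero one_pos hfper hfhol hfbdd
  have hcont : ContinuousAt (fun q : ℂ => q * deriv (cuspFunction 1 f) q) 0 :=
    continuousAt_id.mul han.deriv.continuousAt
  have ht : Tendsto (fun z : ℍ => 𝕢 1 (z : ℂ) * deriv (cuspFunction 1 f) (𝕢 1 z))
      atImInfty (𝓝 0) := by
    have := hcont.tendsto.comp (qParam_tendsto_atImInfty one_pos)
    simpa [Function.comp_def] using this
  have hfun : D f = fun z : ℍ => 𝕢 1 (z : ℂ) * deriv (cuspFunction 1 f) (𝕢 1 z) :=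
    funext fun z => normalizedDeriv_eq_qParam_mul_deriv_cuspFunction hfper hfhol hfbdd z
  rw [IsZeroAtImInfty, ZeroAtFilter, hfun]
  exact ht

end Fermat.Agent.S21.J1

namespace Fermat.Agent.S21.J1

local notation "𝕢" => Periodic.qParam

lemma levelOne_slash_SL {k : ℤ} (f : ModularForm 𝒮ℒ k) (γ : SL(2, ℤ)) :
    (f : ℍ → ℂ) ∣[k] γ = f :=
  SlashInvariantForm.slash_action_eqn f _ (MonoidHom.mem_range.mpr ⟨γ, rfl⟩)

lemma levelOne_mdiff {k : ℤ} (f : ModularForm 𝒮ℒ k) : MDiff (f : ℍ → ℂ) :=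
  ModularFormClass.holo f

lemma levelOne_periodic {k : ℤ} (f : ModularForm 𝒮ℒ k) :
    Periodic ((f : ℍ → ℂ) ∘ ofComplex) ((1 : ℝ) : ℂ) :=
  SlashInvariantFormClass.periodic_comp_ofComplex f one_mem_strictPeriods_SL

lemma levelOne_isBoundedAtImInfty {k : ℤ} (f : ModularForm 𝒮ℒ k) :
    IsBoundedAtImInfty (f : ℍ → ℂ) :=
  haveI : Fact (IsCusp OnePoint.infty 𝒮ℒ) :=
    ⟨Subgroup.isCusp_of_mem_strictPeriods one_pos one_mem_strictPeriods_SL⟩
  ModularFormClass.bdd_at_infty f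

lemma isBoundedAtImInfty_serreDerivative {k : ℤ} (f : ModularForm 𝒮ℒ k) :
    IsBoundedAtImInfty (serreDerivative k f) := by
  have h1 : IsBoundedAtImInfty (D (f : ℍ → ℂ)) :=
    (isZeroAtImInfty_normalizedDeriv (levelOne_periodic f) (levelOne_mdiff f)
      (levelOne_isBoundedAtImInfty f)).isBoundedAtImInfty
  have h2 : IsBoundedAtImInfty (fun z : ℍ => (k : ℂ) * 12⁻¹ * E2 z * f z) := by
    have h3 : IsBoundedAtImInfty (fun _ : ℍ => (k : ℂ) * 12⁻¹) :=
      Filter.const_boundedAtFilter _ _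
    have := (h3.mul isBoundedAtImInfty_E2).mul (levelOne_isBoundedAtImInfty f)
    exact this
  exact h1.sub h2

/-- The Serre derivative of a level one modular form of weight `k`, as a modular form of
weight `k + 2`. -/
def serreDerivMF {k : ℤ} (f : ModularForm 𝒮ℒ k) : ModularForm 𝒮ℒ (k + 2) where
  toFun := serreDerivative k f
  slash_action_eq' A hA := by
    obtain ⟨A, rfl⟩ := hA
    exact serreDerivative_slash_invariant (levelOne_mdiff f) (levelOne_slash_SL f A)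
  holo' := serreDerivative_mdifferentiable k (levelOne_mdiff f)
  bdd_at_cusps' hc := by
    rw [Subgroup.IsArithmetic.isCusp_iff_isCusp_SL2Z] at hc
    rw [OnePoint.isBoundedAt_iff_forall_SL2Z hc]
    intro γ _
    rw [serreDerivative_slash_invariant (levelOne_mdiff f) (levelOne_slash_SL f γ)]
    exact isBoundedAtImInfty_serreDerivative f

@[simp] lemma serreDerivMF_apply {k : ℤ} (f : ModularForm 𝒮ℒ k) (z : ℍ) :
    serreDerivMF f z = D (f : ℍ → ℂ) z - (k : ℂ) * 12⁻¹ * E2 z * f z := rfl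

end Fermat.Agent.S21.J1

namespace Fermat.Agent.S21.J1

local notation "𝕢" => Periodic.qParam

/-- A holomorphic `1`-periodic function bounded at `i∞` tends to the value of its cusp function
at `0`. -/
lemma tendsto_atImInfty_cuspFunction_zero {f : ℍ → ℂ}
    (hfper : Periodic (f ∘ ofComplex) ((1 : ℝ) : ℂ)) (hfhol : MDiff f)
    (hfbdd : IsBoundedAtImInfty f) :
    Tendsto f atImInfty (𝓝 (cuspFunction 1 f 0)) := by
  have han : AnalyticAt ℂ (cuspFunction 1 f) 0 :=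
    analyticAt_cuspFunction_zero one_pos hfper hfhol hfbdd
  have hfun : (cuspFunction 1 f ∘ fun τ : ℍ ↦ 𝕢 1 (τ : ℂ) : ℍ → ℂ) = f := by
    funext τ
    simpa using eq_cuspFunction τ one_ne_zero hfper
  have := han.continuousAt.tendsto.comp (qParam_tendsto_atImInfty one_pos)
  rwa [hfun] at this

/-- A level one modular form tends to its constant `q`-expansion coefficient at `i∞`. -/
lemma levelOne_tendsto_atImInfty {k : ℤ} (f : ModularForm 𝒮ℒ k) :
    Tendsto (f : ℍ → ℂ) atImInfty (𝓝 ((qExpansion 1 f).coeff 0)) := by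
  have h := tendsto_atImInfty_cuspFunction_zero (levelOne_periodic f) (levelOne_mdiff f)
    (levelOne_isBoundedAtImInfty f)
  have han : AnalyticAt ℂ (cuspFunction 1 f) 0 :=
    analyticAt_cuspFunction_zero one_pos (levelOne_periodic f) (levelOne_mdiff f)
      (levelOne_isBoundedAtImInfty f)
  rw [qExpansion_coeff_zero one_pos han (levelOne_periodic f),
    ← cuspFunction_apply_zero one_pos han (levelOne_periodic f)]
  exact h

lemma levelOne_coeff_zero_eq_of_tendsto {k : ℤ} (f : ModularForm 𝒮ℒ k) {c : ℂ}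
    (h : Tendsto (f : ℍ → ℂ) atImInfty (𝓝 c)) : (qExpansion 1 f).coeff 0 = c :=
  tendsto_nhds_unique (levelOne_tendsto_atImInfty f) h

lemma E2_periodic : Periodic (E2 ∘ ofComplex) ((1 : ℝ) : ℂ) := by
  intro w
  by_cases hw : 0 < im w
  · have hw' : 0 < im (w + ((1 : ℝ) : ℂ)) := by simpa using hw
    simp only [comp_apply, ofComplex_apply_of_im_pos hw', ofComplex_apply_of_im_pos hw]
    rw [E2_eq_tsum_cexp, E2_eq_tsum_cexp]
    have hexp : cexp (2 * π * I * (w + ((1 : ℝ) : ℂ))) = cexp (2 * π * I * w) := by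
      rw [mul_add, Complex.exp_add]
      simp [Complex.exp_two_pi_mul_I]
    simp only [hexp]
  · have hw0 : im w ≤ 0 := not_lt.mp hw
    have hw' : im (w + ((1 : ℝ) : ℂ)) ≤ 0 := by simpa using hw0
    simp only [comp_apply]
    rw [ofComplex_apply_of_im_nonpos hw', ofComplex_apply_of_im_nonpos hw0]

lemma E2_tendsto_atImInfty : Tendsto E2 atImInfty (𝓝 1) := by
  have han : AnalyticAt ℂ (cuspFunction 1 E2) 0 :=
    analyticAt_cuspFunction_zero one_pos E2_periodic E2_mdifferentiable isBoundedAtImInfty_E2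
  have hsum : ∀ τ : ℍ, HasSum (fun m : ℕ =>
      (if m = 0 then (1 : ℂ) else -24 * (ArithmeticFunction.sigma 1 m : ℂ)) • 𝕢 1 (τ : ℂ) ^ m)
      (E2 τ) := by
    intro τ
    have := hasSum_qExpansion_E2 τ
    simpa [Periodic.qParam] using this
  have hps := hasFPowerSeriesOnBall_cuspFunction one_pos han hsum
  have h0 : cuspFunction 1 E2 0 = 1 := by
    have := hps.coeff_zero (fun _ => (0 : ℂ))
    simpa [FormalMultilinearSeries.ofScalars] using this.symm
  have h := tendsto_atImInfty_cuspFunction_zero E2_periodic E2_mdifferentiable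
    isBoundedAtImInfty_E2
  rwa [h0] at h

end Fermat.Agent.S21.J1

namespace Fermat.Agent.S21.J1

local notation "𝕢" => Periodic.qParam

/-- A level one modular form of weight `< 12` which tends to `0` at `i∞` is zero. -/
lemma levelOne_eq_zero_of_tendsto_zero {k : ℤ} (hk : k < 12) (f : ModularForm 𝒮ℒ k)
    (h : Tendsto (f : ℍ → ℂ) atImInfty (𝓝 0)) : f = 0 := by
  apply sturm_bound_levelOne
  have h0 : (qExpansion 1 f).coeff 0 = 0 := levelOne_coeff_zero_eq_of_tendsto f h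
  have hk' : k.toNat / 12 = 0 := by
    have : k.toNat < 12 := by omega
    omega
  rw [hk']
  have h1 : (1 : ℕ∞) ≤ (qExpansion 1 (f : ℍ → ℂ)).order := by
    rw [PowerSeries.one_le_order_iff_constCoeff_eq_zero]
    simpa using h0
  exact lt_of_lt_of_le (by norm_num) h1

lemma tendsto_serreDerivative {k : ℤ} (f : ModularForm 𝒮ℒ k) :
    Tendsto (serreDerivative k f) atImInfty
      (𝓝 (-((k : ℂ) * 12⁻¹ * (qExpansion 1 f).coeff 0))) := by
  have h1 : Tendsto (D (f : ℍ → ℂ)) atImInfty (𝓝 0) :=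
    isZeroAtImInfty_normalizedDeriv (levelOne_periodic f) (levelOne_mdiff f)
      (levelOne_isBoundedAtImInfty f)
  have h2 : Tendsto (fun z : ℍ => (k : ℂ) * 12⁻¹ * E2 z * f z) atImInfty
      (𝓝 ((k : ℂ) * 12⁻¹ * 1 * (qExpansion 1 f).coeff 0)) :=
    ((tendsto_const_nhds.mul E2_tendsto_atImInfty).mul (levelOne_tendsto_atImInfty f))
  have := h1.sub h2
  simpa [serreDerivative_eq] using this

/-- **Ramanujan's identity** for `E₄`, Serre derivative form: `∂₄ E₄ = -E₆/3`. -/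
theorem serreDerivative_E₄ (z : ℍ) : serreDerivative 4 E₄ z = -(3⁻¹ * E₆ z) := by
  let G : ModularForm 𝒮ℒ 6 :=
    ModularForm.mcast (by norm_num : ((4 : ℤ) + 2) = 6) (serreDerivMF E₄) + (3⁻¹ : ℂ) • E₆
  have hG : ∀ w : ℍ, G w = serreDerivative 4 E₄ w + 3⁻¹ * E₆ w := fun w => rfl
  have hlim : Tendsto (G : ℍ → ℂ) atImInfty (𝓝 0) := by
    have h1 := tendsto_serreDerivative E₄
    have h2 : Tendsto (fun w : ℍ => (3⁻¹ : ℂ) * E₆ w) atImInfty
        (𝓝 (3⁻¹ * (qExpansion 1 E₆).coeff 0)) :=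
      tendsto_const_nhds.mul (levelOne_tendsto_atImInfty E₆)
    have h3 := h1.add h2
    rw [E_qExpansion_coeff_zero _ ⟨2, rfl⟩, E_qExpansion_coeff_zero _ ⟨3, rfl⟩] at h3
    have h4 : (-(((4 : ℤ) : ℂ) * 12⁻¹ * 1) + 3⁻¹ * 1 : ℂ) = 0 := by
      push_cast; norm_num
    rw [h4] at h3
    refine h3.congr (fun w => ?_)
    rw [hG]
    rfl
  have hzero : G = 0 := levelOne_eq_zero_of_tendsto_zero (by norm_num) G hlim
  have := hG z
  rw [hzero] at this
  have h0 : (0 : ModularForm 𝒮ℒ 6) z = 0 := rfl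
  rw [h0] at this
  linear_combination -this

/-- **Ramanujan's identity** for `E₆`, Serre derivative form: `∂₆ E₆ = -E₄²/2`. -/
theorem serreDerivative_E₆ (z : ℍ) : serreDerivative 6 E₆ z = -(2⁻¹ * E₄ z ^ 2) := by
  let G : ModularForm 𝒮ℒ 8 :=
    ModularForm.mcast (by norm_num : ((6 : ℤ) + 2) = 8) (serreDerivMF E₆) +
      (2⁻¹ : ℂ) • ModularForm.mcast (by norm_num : ((4 : ℤ) + 4) = 8) (E₄.mul E₄)
  have hG : ∀ w : ℍ, G w = serreDerivative 6 E₆ w + 2⁻¹ * (E₄ w * E₄ w) := fun w => rfl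
  have hlim : Tendsto (G : ℍ → ℂ) atImInfty (𝓝 0) := by
    have h1 := tendsto_serreDerivative E₆
    have h2 : Tendsto (fun w : ℍ => (2⁻¹ : ℂ) * (E₄ w * E₄ w)) atImInfty
        (𝓝 (2⁻¹ * ((qExpansion 1 E₄).coeff 0 * (qExpansion 1 E₄).coeff 0))) :=
      tendsto_const_nhds.mul
        ((levelOne_tendsto_atImInfty E₄).mul (levelOne_tendsto_atImInfty E₄))
    have h3 := h1.add h2
    rw [E_qExpansion_coeff_zero _ ⟨2, rfl⟩, E_qExpansion_coeff_zero _ ⟨3, rfl⟩] at h3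
    have h4 : (-(((6 : ℤ) : ℂ) * 12⁻¹ * 1) + 2⁻¹ * (1 * 1) : ℂ) = 0 := by
      push_cast; norm_num
    rw [h4] at h3
    refine h3.congr (fun w => ?_)
    rw [hG]
    rfl
  have hzero : G = 0 := levelOne_eq_zero_of_tendsto_zero (by norm_num) G hlim
  have := hG z
  rw [hzero] at this
  have h0 : (0 : ModularForm 𝒮ℒ 8) z = 0 := rfl
  rw [h0] at this
  linear_combination -this

end Fermat.Agent.S21.J1

namespace Fermat.Agent.S21.J1

open ModularGroup

local notation "𝕢" => Periodic.qParam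
local notation "Δ" => ModularForm.discriminant

/-- **Ramanujan's identity** `D E₄ = (E₂ E₄ - E₆) / 3`. -/
theorem ramanujan_E₄ (z : ℍ) : D (E₄ : ℍ → ℂ) z = 3⁻¹ * (E2 z * E₄ z - E₆ z) := by
  have h := serreDerivative_E₄ z
  rw [serreDerivative_apply] at h
  linear_combination h

/-- **Ramanujan's identity** `D E₆ = (E₂ E₆ - E₄²) / 2`. -/
theorem ramanujan_E₆ (z : ℍ) : D (E₆ : ℍ → ℂ) z = 2⁻¹ * (E2 z * E₆ z - E₄ z ^ 2) := by
  have h := serreDerivative_E₆ z
  rw [serreDerivative_apply] at h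
  linear_combination h

lemma two_pi_I_ne_zero' : (2 * π * I : ℂ) ≠ 0 := by
  simp [Real.pi_ne_zero, I_ne_zero]

lemma deriv_eq_two_pi_I_mul_D (F : ℍ → ℂ) (z : ℍ) :
    deriv (F ∘ ofComplex) (z : ℂ) = 2 * π * I * D F z := by
  simp only [normalizedDerivOfComplex]
  field_simp [two_pi_I_ne_zero']

/-- `E₄` and `E₆` have no common zero. -/
theorem E₄_E₆_not_both_zero (z : ℍ) : ¬ (E₄ z = 0 ∧ E₆ z = 0) := by
  rintro ⟨h4, h6⟩
  have h := discriminant_eq_E₄_cube_sub_E₆_sq z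
  rw [h4, h6] at h
  exact discriminant_ne_zero z (by simpa using h)

/-- Every zero of `E₄` is simple: `D E₄ ≠ 0` there. -/
theorem D_E₄_ne_zero_of_eq_zero {z : ℍ} (h : E₄ z = 0) : D (E₄ : ℍ → ℂ) z ≠ 0 := by
  have h6 : E₆ z ≠ 0 := fun h6 => E₄_E₆_not_both_zero z ⟨h, h6⟩
  rw [ramanujan_E₄, h]
  simpa using h6

/-- Every zero of `E₆` is simple: `D E₆ ≠ 0` there. -/
theorem D_E₆_ne_zero_of_eq_zero {z : ℍ} (h : E₆ z = 0) : D (E₆ : ℍ → ℂ) z ≠ 0 := by
  have h4 : E₄ z ≠ 0 := fun h4 => E₄_E₆_not_both_zero z ⟨h4, h⟩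
  rw [ramanujan_E₆, h]
  simpa using h4

/-- Every zero of `E₄` is simple (derivative form). -/
theorem deriv_E₄_ne_zero_of_eq_zero {z : ℍ} (h : E₄ z = 0) :
    deriv ((E₄ : ℍ → ℂ) ∘ ofComplex) (z : ℂ) ≠ 0 := by
  rw [deriv_eq_two_pi_I_mul_D]
  exact mul_ne_zero two_pi_I_ne_zero' (D_E₄_ne_zero_of_eq_zero h)

/-- Every zero of `E₆` is simple (derivative form). -/
theorem deriv_E₆_ne_zero_of_eq_zero {z : ℍ} (h : E₆ z = 0) :
    deriv ((E₆ : ℍ → ℂ) ∘ ofComplex) (z : ℂ) ≠ 0 := by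
  rw [deriv_eq_two_pi_I_mul_D]
  exact mul_ne_zero two_pi_I_ne_zero' (D_E₆_ne_zero_of_eq_zero h)

lemma analyticAt_comp_ofComplex' {F : ℍ → ℂ} (hF : MDiff F) (z : ℍ) :
    AnalyticAt ℂ (F ∘ ofComplex) (z : ℂ) :=
  (UpperHalfPlane.mdifferentiable_iff.mp hF).analyticOnNhd isOpen_upperHalfPlaneSet
    (z : ℂ) z.im_pos

/-- Every zero of `E₄` has order exactly one. -/
theorem analyticOrderAt_E₄_of_eq_zero {z : ℍ} (h : E₄ z = 0) :
    analyticOrderAt ((E₄ : ℍ → ℂ) ∘ ofComplex) (z : ℂ) = 1 :=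
  (analyticAt_comp_ofComplex' (levelOne_mdiff E₄) z).analyticOrderAt_eq_one_of_zero_deriv_ne_zero
    (by simpa [ofComplex_apply] using h) (deriv_E₄_ne_zero_of_eq_zero h)

/-- Every zero of `E₆` has order exactly one. -/
theorem analyticOrderAt_E₆_of_eq_zero {z : ℍ} (h : E₆ z = 0) :
    analyticOrderAt ((E₆ : ℍ → ℂ) ∘ ofComplex) (z : ℂ) = 1 :=
  (analyticAt_comp_ofComplex' (levelOne_mdiff E₆) z).analyticOrderAt_eq_one_of_zero_deriv_ne_zero
    (by simpa [ofComplex_apply] using h) (deriv_E₆_ne_zero_of_eq_zero h)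

end Fermat.Agent.S21.J1

namespace Fermat.Agent.S21.J1

open ModularGroup

local notation "Δ" => ModularForm.discriminant

/-- The transformation rule of a level one modular form under `SL(2,ℤ)`. -/
lemma levelOne_smul_apply {k : ℤ} (f : ModularForm 𝒮ℒ k) (γ : SL(2, ℤ)) (z : ℍ) :
    f (γ • z) = (denom γ z) ^ k * f z := by
  have h := congrFun (levelOne_slash_SL f γ) z
  rw [ModularForm.SL_slash_apply] at h
  have hd : (denom γ z) ≠ 0 := denom_ne_zero γ z
  have hd' : (denom γ z) ^ k ≠ 0 := zpow_ne_zero k hd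
  rw [zpow_neg] at h
  field_simp at h
  rw [h]

/-- A level one modular form vanishes at `γ • z` iff it vanishes at `z`. -/
lemma levelOne_smul_eq_zero_iff {k : ℤ} (f : ModularForm 𝒮ℒ k) (γ : SL(2, ℤ)) (z : ℍ) :
    f (γ • z) = 0 ↔ f z = 0 := by
  rw [levelOne_smul_apply]
  have hd' : (denom γ z) ^ k ≠ 0 := zpow_ne_zero k (denom_ne_zero γ z)
  simp [hd']

lemma S_entries : ((S : SL(2, ℤ)) 0 0 = 0) ∧ ((S : SL(2, ℤ)) 0 1 = -1) ∧
    ((S : SL(2, ℤ)) 1 0 = 1) ∧ ((S : SL(2, ℤ)) 1 1 = 0) := by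
  refine ⟨?_, ?_, ?_, ?_⟩ <;> rfl

lemma ST_entries : ((S * T : SL(2, ℤ)) 0 0 = 0) ∧ ((S * T : SL(2, ℤ)) 0 1 = -1) ∧
    ((S * T : SL(2, ℤ)) 1 0 = 1) ∧ ((S * T : SL(2, ℤ)) 1 1 = 1) := by
  refine ⟨?_, ?_, ?_, ?_⟩ <;> decide

lemma coe_S_smul (z : ℍ) : ((S • z : ℍ) : ℂ) = -1 / (z : ℂ) := by
  rw [UpperHalfPlane.coe_specialLinearGroup_apply]
  obtain ⟨h00, h01, h10, h11⟩ := S_entries
  rw [h00, h01, h10, h11]
  simp

lemma coe_ST_smul (z : ℍ) : (((S * T) • z : ℍ) : ℂ) = -1 / ((z : ℂ) + 1) := by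
  rw [UpperHalfPlane.coe_specialLinearGroup_apply]
  obtain ⟨h00, h01, h10, h11⟩ := ST_entries
  rw [h00, h01, h10, h11]
  simp

lemma denom_ST (z : ℍ) : denom (S * T : SL(2, ℤ)) z = (z : ℂ) + 1 := by
  rw [ModularGroup.denom_apply]
  obtain ⟨h00, h01, h10, h11⟩ := ST_entries
  rw [h10, h11]
  simp

/-- `E₆` vanishes at every fixed point of `S` (i.e. at `i`). -/
theorem E₆_eq_zero_of_S_smul_eq {z : ℍ} (h : S • z = z) : E₆ z = 0 := by
  have h1 := levelOne_smul_apply E₆ S z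
  rw [h, denom_S] at h1
  have hz2 : (z : ℂ) ^ 2 = -1 := by
    have h2 := congrArg UpperHalfPlane.coe h
    rw [coe_S_smul] at h2
    have hz : (z : ℂ) ≠ 0 := ne_zero z
    field_simp at h2
    linear_combination -h2
  have h6 : (z : ℂ) ^ (6 : ℤ) = -1 := by
    have : (z : ℂ) ^ (6 : ℤ) = ((z : ℂ) ^ 2) ^ 3 := by
      rw [← pow_mul]; norm_cast
    rw [this, hz2]; norm_num
  rw [h6] at h1
  have : (2 : ℂ) * E₆ z = 0 := by linear_combination h1
  simpa using this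

/-- `E₄` vanishes at every fixed point of `S * T` (i.e. at `ρ = e^{2πi/3}`). -/
theorem E₄_eq_zero_of_ST_smul_eq {z : ℍ} (h : (S * T) • z = z) : E₄ z = 0 := by
  have h1 := levelOne_smul_apply E₄ (S * T) z
  rw [h, denom_ST] at h1
  have hz1 : (z : ℂ) + 1 ≠ 0 := by
    rw [← denom_ST]; exact denom_ne_zero _ z
  have hz2 : (z : ℂ) ^ 2 + z + 1 = 0 := by
    have h2 := congrArg UpperHalfPlane.coe h
    rw [coe_ST_smul] at h2
    field_simp at h2
    linear_combination -h2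
  have h4 : ((z : ℂ) + 1) ^ (4 : ℤ) = (z : ℂ) ^ 2 := by
    have : ((z : ℂ) + 1) ^ (4 : ℤ) = ((z : ℂ) + 1) ^ 4 := by norm_cast
    rw [this]
    linear_combination ((z : ℂ) ^ 2 + 3 * z + 1) * hz2
  rw [h4] at h1
  have hne : (1 : ℂ) - (z : ℂ) ^ 2 ≠ 0 := by
    intro h0
    have h3 : (z : ℂ) = -2 := by linear_combination hz2 + h0
    have him := congrArg Complex.im h3
    have := z.im_pos
    rw [UpperHalfPlane.coe_im] at him
    simp at him
    linarith
  have : (1 - (z : ℂ) ^ 2) * E₄ z = 0 := by linear_combination h1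
  rcases mul_eq_zero.mp this with h0 | h0
  · exact absurd h0 hne
  · exact h0

/-- `S` fixes `i`. -/
lemma S_smul_I : S • (UpperHalfPlane.I : ℍ) = UpperHalfPlane.I := by
  apply UpperHalfPlane.ext
  rw [coe_S_smul]
  have : ((UpperHalfPlane.I : ℍ) : ℂ) = Complex.I := rfl
  rw [this]
  field_simp
  simp

/-- `E₆ i = 0`. -/
theorem E₆_I : E₆ UpperHalfPlane.I = 0 := E₆_eq_zero_of_S_smul_eq S_smul_I

/-- `E₆` vanishes on the orbit of `i`. -/
theorem E₆_smul_I (γ : SL(2, ℤ)) : E₆ (γ • UpperHalfPlane.I) = 0 :=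
  (levelOne_smul_eq_zero_iff E₆ γ _).mpr E₆_I

/-- the elliptic point `ρ = e^{2πi/3} = (-1 + i √3) / 2` -/
def rho : ℍ := ⟨⟨-1 / 2, Real.sqrt 3 / 2⟩, by
  show 0 < Real.sqrt 3 / 2
  positivity⟩

lemma rho_coe : (rho : ℂ) = ⟨-1 / 2, Real.sqrt 3 / 2⟩ := rfl

lemma rho_sq_add_rho_add_one : (rho : ℂ) ^ 2 + rho + 1 = 0 := by
  have h3 : Real.sqrt 3 * Real.sqrt 3 = 3 := Real.mul_self_sqrt (by norm_num)
  apply Complex.ext
  · simp [rho_coe, pow_two]
    nlinarith
  · simp [rho_coe, pow_two]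
    ring

/-- `S * T` fixes `ρ`. -/
lemma ST_smul_rho : (S * T) • rho = rho := by
  apply UpperHalfPlane.ext
  rw [coe_ST_smul]
  have h := rho_sq_add_rho_add_one
  have hz1 : (rho : ℂ) + 1 ≠ 0 := by
    rw [← denom_ST]; exact denom_ne_zero _ rho
  field_simp
  linear_combination -h

/-- `E₄ ρ = 0`. -/
theorem E₄_rho : E₄ rho = 0 := E₄_eq_zero_of_ST_smul_eq ST_smul_rho

/-- `E₄` vanishes on the orbit of `ρ`. -/
theorem E₄_smul_rho (γ : SL(2, ℤ)) : E₄ (γ • rho) = 0 :=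
  (levelOne_smul_eq_zero_iff E₄ γ _).mpr E₄_rho

theorem E₆_rho_ne_zero : E₆ rho ≠ 0 := fun h => E₄_E₆_not_both_zero rho ⟨E₄_rho, h⟩

theorem E₄_I_ne_zero : E₄ UpperHalfPlane.I ≠ 0 := fun h =>
  E₄_E₆_not_both_zero UpperHalfPlane.I ⟨h, E₆_I⟩

end Fermat.Agent.S21.J1
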